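import Mathlib

set_option autoImplicit false

/-!
# S35: the common root argument

`s` acts on `W ≠ 0` (torsion free), `s² - t s + q = 0` and `(s² - q²)(s² - 1) = 0` on `W`.  Then `t = ± (q + 1)`.
-/

namespace Fermat.Agent.S35

variable {𝒪 : Type*} [CommRing 𝒪] [IsDomain 𝒪] {r : ℕ}

theorem root_of_eigen (s : Matrix (Fin r) (Fin r) 𝒪) (t e c : 𝒪) (z : Fin r → 𝒪) (hz : z ≠ 0)
    (hP : s.mulVec (s.mulVec z) - t • s.mulVec z + e • z = 0) (hc : s.mulVec z = c • z) :
    c * c - t * c + e = 0 := by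
  rw [hc, Matrix.mulVec_smul, hc, smul_smul, smul_smul, ← sub_smul, ← add_smul] at hP
  exact (smul_eq_zero.mp hP).resolve_right hz

theorem trace_of_common_root [CharZero 𝒪] (s : Matrix (Fin r) (Fin r) 𝒪)
    (W : Submodule 𝒪 (Fin r → 𝒪)) (hstab : ∀ v ∈ W, s.mulVec v ∈ W) (t : 𝒪) (q : ℕ) (hq : q ≠ 0)
    (hP : ∀ v ∈ W, s.mulVec (s.mulVec v) - t • s.mulVec v + (q : 𝒪) • v = 0)
    (hQ : ∀ v ∈ W, s.mulVec (s.mulVec (s.mulVec (s.mulVec v) - v))
      - ((q : 𝒪) ^ 2) • (s.mulVec (s.mulVec v) - v) = 0)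
    (v₀ : Fin r → 𝒪) (hv₀ : v₀ ∈ W) (hv₀ne : v₀ ≠ 0) :
    t = (q : 𝒪) + 1 ∨ t = -((q : 𝒪) + 1) := by
  have hq0 : (q : 𝒪) ≠ 0 := by exact_mod_cast hq
  -- a vector with `s² y = c² y` gives an eigenvector with eigenvalue `± c`
  have key : ∀ (c : 𝒪) (y : Fin r → 𝒪), y ∈ W → y ≠ 0 → s.mulVec (s.mulVec y) = (c ^ 2) • y →
      (c * c - t * c + q = 0) ∨ ((-c) * (-c) - t * (-c) + q = 0) := by
    intro c y hy hy0 hyy
    by_cases hz : s.mulVec y + c • y = 0
    · right
      refine root_of_eigen s t q (-c) y hy0 (hP y hy) ?_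
      rw [neg_smul]
      exact eq_neg_of_add_eq_zero_left hz
    · left
      refine root_of_eigen s t q c _ hz (hP _ (W.add_mem (hstab y hy) (W.smul_mem c hy))) ?_
      rw [Matrix.mulVec_add, Matrix.mulVec_smul, hyy, smul_add, smul_smul, add_comm, pow_two]
  by_cases hy : s.mulVec (s.mulVec v₀) - v₀ = 0
  · rcases key 1 v₀ hv₀ hv₀ne (by rw [one_pow, one_smul]; exact sub_eq_zero.mp hy) with h | h
    · left
      linear_combination -h
    · right
      linear_combination h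
  · have hyW : s.mulVec (s.mulVec v₀) - v₀ ∈ W :=
      W.sub_mem (hstab _ (hstab _ hv₀)) hv₀
    rcases key q _ hyW hy (sub_eq_zero.mp (hQ v₀ hv₀)) with h | h
    · left
      have h1 : (q : 𝒪) * ((q : 𝒪) + 1 - t) = 0 := by linear_combination h
      have h2 := (mul_eq_zero.mp h1).resolve_left hq0
      linear_combination -h2
    · right
      have h1 : (q : 𝒪) * ((q : 𝒪) + 1 + t) = 0 := by linear_combination h
      have h2 := (mul_eq_zero.mp h1).resolve_left hq0
      linear_combination h2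

end Fermat.Agent.S35
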