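import Fermat.Agent.S35.GoalB
import Fermat.Agent.S35.C.NP

set_option autoImplicit false

/-!
# S35: THE geometric identity (final theorem of chapter S35G)

`q ∤ N`, level `N q`, `p ≠ q`, `s` a Frobenius lift at a place `A` over `q`, `x` a Kummer class modulo `p ^ n` of `X₀(N q)` which is
`q`-new (`α_* x = β_* x = 0`).  Then `d (s² - q²)(s² - 1) x = 0` with `d > 0` independent of `n`, `A`, `s`, `x`.

Proof: `S35.goalB` at the auxiliary level `N r q` (`r = 3`, or `2` if `q = 3`), `d = [F_{Nrq} : F_{Nq}]`; the two norms commute with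
the change of level (`normA_inclF'`, `normB_inclF'`), and the norm `F_{Nrq} → F_{Nq}` brings the conclusion back.
-/

namespace Fermat.Agent.S35

open Fermat.Agent
open AlgebraicCurve ModularCurve
open Fermat.Agent.S24 (Kb FN)
open Fermat.Agent.GES
open Fermat.Agent.S36.AuxL (inclF coe_inclF inclF_galF normI degI degI_pos normI_inclF inclU inclU_mem
  coe_inclU)

/-- field version at level `N q`. -/
theorem frob_field (N q p r : ℕ) [NeZero N] [NeZero q] [NeZero r] (hq : q.Prime) (hp : p.Prime)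
    (hqp : q ≠ p) (hqN : ¬ q ∣ N) (hr : (q ≠ 3 ∧ r = 3) ∨ (q = 3 ∧ r = 2)) (n : ℕ)
    (A : ValuationSubring Kb) (hA : A.LiesOverPrime q) (s : GQ) (hs : A.IsFrobeniusAt s q)
    (f : (FN (N * q))ˣ) (hdiv : f ∈ DN (N * q) (p ^ n))
    (a b : FN N) (ha : a ^ (p ^ n) = GES.normA N q f) (hb : b ^ (p ^ n) = NEW.normB N q f) :
    ∃ w : FN (N * q), w ^ (p ^ n) =
      (galF (N * q) s (galF (N * q) s (galF (N * q) s (galF (N * q) s (f : FN (N * q))) / f)) /
        (galF (N * q) s (galF (N * q) s (f : FN (N * q))) / f) ^ (q ^ 2)) ^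
          degI (Nat.mul_dvd_mul_right (dvd_mul_right N r) q) := by
  have hrq : ¬ q ∣ r := by
    rcases hr with ⟨h1, rfl⟩ | ⟨rfl, rfl⟩
    · intro h
      exact h1 ((Nat.prime_dvd_prime_iff_eq hq Nat.prime_three).mp h)
    · norm_num
  have hqNr : ¬ q ∣ N * r := fun h => (hq.dvd_mul.mp h).elim hqN hrq
  have hd : N ∣ N * r := dvd_mul_right N r
  have hd2 : N * q ∣ N * r * q := Nat.mul_dvd_mul_right hd q
  obtain ⟨w, hw⟩ := goalB (N * r) q p r hq hp hqp hqNr hr (dvd_mul_left r N) n A hA s hs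
    (inclF hd2 f) ((map_ne_zero (inclF hd2)).mpr f.ne_zero)
    (fun v => inclU_mem hd2 (p ^ n) f hdiv v) (inclF hd a) (inclF hd b)
    (by rw [← map_pow, ha, normA_inclF' q hd hq hqNr])
    (by rw [← map_pow, hb, normB_inclF' q hd hq hqNr])
  set G : FN (N * q) := galF (N * q) s (galF (N * q) s (f : FN (N * q))) / f with hG
  have hG0 : G ≠ 0 := by
    rw [hG]
    exact div_ne_zero ((map_ne_zero _).mpr ((map_ne_zero _).mpr f.ne_zero)) f.ne_zero
  have e1 : galF (N * r * q) s (galF (N * r * q) s (inclF hd2 (f : FN (N * q)))) / inclF hd2 f =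
      inclF hd2 G := by
    rw [hG, map_div₀, inclF_galF, inclF_galF]
  rw [e1, ← inclF_galF, ← inclF_galF, ← map_pow] at hw
  have h2 := congrArg (normI hd2) hw
  rw [map_mul, map_pow, normI_inclF, normI_inclF] at h2
  refine ⟨normI hd2 w, ?_⟩
  rw [div_pow, eq_div_iff (pow_ne_zero _ (pow_ne_zero _ hG0))]
  exact h2

theorem frob_identity (N q p : ℕ) [NeZero N] [NeZero q] [NeZero p] (hq : q.Prime) (hp : p.Prime)
    (hqp : q ≠ p) (hqN : ¬ q ∣ N) :
    ∃ d : ℕ, 0 < d ∧ ∀ (n : ℕ) (A : ValuationSubring (AlgebraicClosure ℚ)), A.LiesOverPrime q →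
      ∀ s : GES.GQ, A.IsFrobeniusAt s q → ∀ x : GES.VN (N * q) (p ^ n),
        NEW.alphaV N q (p ^ n) x = 0 → NEW.betaV N q (p ^ n) x = 0 →
        d • (GES.rhoV (N * q) (p ^ n) s (GES.rhoV (N * q) (p ^ n) s
              (GES.rhoV (N * q) (p ^ n) s (GES.rhoV (N * q) (p ^ n) s x) - x))
            - (q ^ 2) • (GES.rhoV (N * q) (p ^ n) s (GES.rhoV (N * q) (p ^ n) s x) - x)) = 0 := by
  obtain ⟨r, hr, hr0⟩ : ∃ r : ℕ, ((q ≠ 3 ∧ r = 3) ∨ (q = 3 ∧ r = 2)) ∧ r ≠ 0 := by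
    by_cases h : q = 3
    · exact ⟨2, Or.inr ⟨h, rfl⟩, by norm_num⟩
    · exact ⟨3, Or.inl ⟨h, rfl⟩, by norm_num⟩
  have : NeZero r := ⟨hr0⟩
  refine ⟨degI (Nat.mul_dvd_mul_right (dvd_mul_right N r) q), degI_pos _, ?_⟩
  intro n A hA s hs x hax hbx
  obtain ⟨f, rfl⟩ := Vm.mk_surjective x
  obtain ⟨a, ha⟩ := (NEW.alphaV_mk_eq_zero_iff N q (p ^ n) f).mp hax
  obtain ⟨b, hb⟩ := (NEW.betaV_mk_eq_zero_iff N q (p ^ n) f).mp hbx
  obtain ⟨w, hw⟩ := frob_field N q p r hq hp hqp hqN hr n A hA s hs f f.2 a b ha hb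
  rw [rhoV_mk, rhoV_mk, ← Vm.mk_div, rhoV_mk, rhoV_mk, ← Vm.mk_pow, ← Vm.mk_div, ← Vm.mk_pow]
  refine Vm.mk_eq_zero_of_pow_eq (pow_ne_zero n hp.ne_zero) _ w ?_
  rw [hw]
  simp only [Subgroup.coe_pow, Subgroup.coe_div, Units.val_pow_eq_pow_val, Units.val_div_eq_div_val,
    coe_galU]

end Fermat.Agent.S35
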