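import Fermat.Agent.NEW.NewPart
import Fermat.Agent.NEW.Flat
import Fermat.Agent.NEW.Rep
import Fermat.Agent.S35.FrobId

set_option autoImplicit false

/-!
# S35: `(s² - q²)(s² - 1) = 0` on the eigenmodule of a newform, `s = ρ(Frob_q)`, `q ∥` level
-/

namespace Fermat.Agent.S35

open IsLocalRing CongruenceSubgroup
open Fermat.Agent.S30 Fermat.Agent.GES Fermat.Agent.NEW

variable {N q p : ℕ} [NeZero N] [NeZero q] [NeZero p]

/-- the integer matrix `(R² - q²)(R² - 1)`. -/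
def polyQ {R : Type*} [CommRing R] {r : ℕ} (q : ℕ) (M : Matrix (Fin r) (Fin r) R) :
    Matrix (Fin r) (Fin r) R :=
  (M * M - ((q : R) ^ 2) • 1) * (M * M - 1)

theorem polyQ_mulVec {R : Type*} [CommRing R] {r : ℕ} (q : ℕ) (M : Matrix (Fin r) (Fin r) R)
    (v : Fin r → R) :
    (polyQ q M).mulVec v = M.mulVec (M.mulVec (M.mulVec (M.mulVec v) - v))
      - ((q : R) ^ 2) • (M.mulVec (M.mulVec v) - v) := by
  rw [polyQ, ← Matrix.mulVec_mulVec, Matrix.sub_mulVec, Matrix.sub_mulVec, Matrix.one_mulVec,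
    Matrix.smul_mulVec, Matrix.one_mulVec, ← Matrix.mulVec_mulVec, ← Matrix.mulVec_mulVec]

theorem polyQ_map {R : Type*} [CommRing R] {r : ℕ} (q : ℕ) (M : Matrix (Fin r) (Fin r) ℤ) :
    (polyQ q M).map (Int.castRingHom R) = polyQ q (M.map (Int.castRingHom R)) := by
  have h1 : (1 : Matrix (Fin r) (Fin r) ℤ).map (Int.castRingHom R) = 1 :=
    map_one (Int.castRingHom R).mapMatrix
  have h2 : ∀ X Y : Matrix (Fin r) (Fin r) ℤ, (X - Y).map (Int.castRingHom R) =
      X.map (Int.castRingHom R) - Y.map (Int.castRingHom R) :=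
    fun X Y => map_sub (Int.castRingHom R).mapMatrix X Y
  rw [polyQ, polyQ, Matrix.map_mul, h2, h2, Matrix.map_mul, h1,
    Matrix.map_smul' _ _ _ (map_mul _), h1]
  simp

theorem polyQ_mcong {R : Type*} [CommRing R] {r : ℕ} (q : ℕ) {I : Ideal R}
    {M M' : Matrix (Fin r) (Fin r) R} (h : MCong I M M') : MCong I (polyQ q M) (polyQ q M') :=
  (((h.mul h).sub (MCong.refl _)).mul ((h.mul h).sub (MCong.refl _)))

theorem frob_poly_zero (hq : q.Prime) (hp : p.Prime) (hqp : q ≠ p) (hqN : ¬ q ∣ N)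
    (C : Coord (N * q) p)
    {g : CuspForm (Gamma0 (N * q)) 2} (hg : g.IsNewform) (S : Finset ℕ) (hpS : p ∈ S)
    (hMS : ∀ ℓ : ℕ, ℓ.Prime → ℓ ∣ N * q → ℓ ∈ S)
    {𝒪 : Type} [CommRing 𝒪] [IsDomain 𝒪] [IsDiscreteValuationRing 𝒪]
    [IsAdicComplete (maximalIdeal 𝒪) 𝒪] [CharZero 𝒪] (hp𝒪 : (p : 𝒪) ∈ maximalIdeal 𝒪)
    (chig : CuspForm.heckeAlgebra (N * q) 2 (↑S : Set ℕ) →+* ℂ)
    (hchig : ∀ (ℓ : ℕ) (hℓ : ℓ.Prime) (hℓM : ¬ ℓ ∣ N * q) (hℓS : ℓ ∉ (↑S : Set ℕ)),
      chig (CuspForm.heckeAlgebra.T hℓ hℓM hℓS) = ModularFormClass.qCoeff g ℓ)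
    (iota : chig.range →+* 𝒪)
    (ρ : S30.GQ →* Matrix (Fin C.r) (Fin C.r) 𝒪)
    (hρ : ∀ σ n, MCong (maximalIdeal 𝒪 ^ n) (ρ σ) ((C.R n σ).map (Int.castRingHom 𝒪)))
    (A : ValuationSubring (AlgebraicClosure ℚ)) (hA : A.LiesOverPrime q) (σ : S30.GQ)
    (hσ : A.IsFrobeniusAt σ q)
    (v : Fin C.r → 𝒪)
    (hv : v ∈ eigenModule (N * q) S (C.TO 𝒪) (eigSys (iota.comp chig.rangeRestrict))) :
    (polyQ q (ρ σ)).mulVec v = 0 := by
  obtain ⟨C'⟩ := exists_coord N p hp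
  obtain ⟨d, hd, hid⟩ := frob_identity N q p hq hp hqp hqN
  obtain ⟨Am, Bm, hAm, hBm, hAB⟩ := new_part hq.one_lt hp C C' hg S hpS hMS hp𝒪 chig hchig iota
  have hd𝒪 : (d : 𝒪) ≠ 0 := by exact_mod_cast hd.ne'
  -- it suffices to prove that `d • Q(ρ σ) v` vanishes modulo all powers of the maximal ideal
  have key : ∀ n k, (d : 𝒪) * ((polyQ q (ρ σ)).mulVec v) k ∈ maximalIdeal 𝒪 ^ n := by
    intro n k
    have hpn : p ^ n ≠ 0 := pow_ne_zero _ hp.ne_zero
    have h1 := flat_transfer (𝒪 := 𝒪) (p ^ n) hpn (Matrix.fromRows (Am n) (Bm n))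
      ((d : ℤ) • polyQ q (C.R n σ)) (by
        intro h hE
        have hα : alphaV N q (p ^ n) (C.κ n h) = 0 := by
          rw [← hAm]
          refine kappa_eq_zero_of_dvd C' n _ fun i => ?_
          have := hE (Sum.inl i)
          rw [Matrix.fromRows_mulVec, Sum.elim_inl] at this
          exact_mod_cast this
        have hβ : betaV N q (p ^ n) (C.κ n h) = 0 := by
          rw [← hBm]
          refine kappa_eq_zero_of_dvd C' n _ fun i => ?_
          have := hE (Sum.inr i)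
          rw [Matrix.fromRows_mulVec, Sum.elim_inr] at this
          exact_mod_cast this
        have h2 := hid n A hA σ hσ (C.κ n h) hα hβ
        have h3 : C.κ n (((d : ℤ) • polyQ q (C.R n σ)).mulVec h) = 0 := by
          rw [Matrix.smul_mulVec, polyQ_mulVec, map_zsmul, map_sub, map_zsmul, C.κ_R, C.κ_R,
            map_sub, C.κ_R, C.κ_R, natCast_zsmul, ← h2, ← Nat.cast_pow, natCast_zsmul]
        intro k
        have := C.κ_ker n _ h3 k
        exact_mod_cast this) v (by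
        intro i
        rcases i with i | i
        · have := (hAB v hv n i).1
          rw [Matrix.fromRows_map, Matrix.fromRows_mulVec, Sum.elim_inl]
          exact_mod_cast this
        · have := (hAB v hv n i).2
          rw [Matrix.fromRows_map, Matrix.fromRows_mulVec, Sum.elim_inr]
          exact_mod_cast this) k
    have h2 : ((((d : ℤ) • polyQ q (C.R n σ)).map (Int.castRingHom 𝒪)).mulVec v) k ∈
        maximalIdeal 𝒪 ^ n := by
      obtain ⟨c, hc⟩ := h1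
      rw [hc]
      push_cast
      exact Ideal.mul_mem_right _ _ (Ideal.pow_mem_pow hp𝒪 n)
    have h3 : (((d : ℤ) • polyQ q (C.R n σ)).map (Int.castRingHom 𝒪)) =
        (d : 𝒪) • polyQ q ((C.R n σ).map (Int.castRingHom 𝒪)) := by
      rw [← polyQ_map, Matrix.map_smul' _ _ _ (map_mul _)]
      simp
    rw [h3, Matrix.smul_mulVec, Pi.smul_apply, smul_eq_mul] at h2
    have h4 := (polyQ_mcong q (hρ σ n)).mulVec v k
    have h5 : (d : 𝒪) * ((polyQ q (ρ σ)).mulVec v) k =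
        (d : 𝒪) * (((polyQ q (ρ σ)).mulVec v) k -
          ((polyQ q ((C.R n σ).map (Int.castRingHom 𝒪))).mulVec v) k) +
        (d : 𝒪) * ((polyQ q ((C.R n σ).map (Int.castRingHom 𝒪))).mulVec v) k := by ring
    rw [h5]
    exact Ideal.add_mem _ (Ideal.mul_mem_left _ _ h4) h2
  funext k
  have h0 : (d : 𝒪) * ((polyQ q (ρ σ)).mulVec v) k = 0 :=
    eq_of_forall_sub_mem (maximalIdeal 𝒪) fun n => by rw [sub_zero]; exact key n k
  exact (mul_eq_zero.mp h0).resolve_left hd𝒪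

end Fermat.Agent.S35
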