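import Fermat.Agent.S35.C.G1c
import Fermat.Agent.S35.ASM.G2

set_option autoImplicit false

/-!
# S35: GOAL B (final assembly of the geometric chapter S35G at a level with auxiliary structure)

`q ∤ N`, level `N q`, `r ∣ N` (`r = 3` for `q ≠ 3`, `r = 2` for `q = 3`), `p ≠ q`, `m = p ^ n`, `s` a Frobenius lift at a place `A` over `q`, `S = galF (N q) s`,
`f ∈ F_{Nq}` with `m ∣ div f`, and both norms `N_α f`, `N_β f` are `m`-th powers.   Then `(S² - q²)(S² - 1) f` is an `m`-th power.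

Route: `g := W f * S f` (`W = w_q`).  (G1 = `g1_conc`) `g * H ^ m =: y ≡ 1` on both branches.  (G2 = `g2_conc`) `S² y / y ^ (q²)` is an `m`-th power, hence so is `Z := S² g / g ^ (q²)`.
`S Z / W Z = S² (S² f / f) / (S² f / f) ^ (q²)` because `S g / W g = S² f / f`.
-/

namespace Fermat.Agent.S35

open AlgebraicCurve ModularCurve
open Fermat.Agent.S24 (Kb FN)
open Fermat.Agent.GES (GQ galF)

/-- `w_q` preserves `m ∣ div`. -/
theorem WF_dvd_ord (N q : ℕ) [NeZero N] [NeZero q] (m : ℕ) (f : FN (N * q))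
    (hdiv : ∀ v : Place Kb (FN (N * q)), (m : ℤ) ∣ v.ord f) (v : Place Kb (FN (N * q))) :
    (m : ℤ) ∣ v.ord (WF N q f) := by
  have hint : ((WF N q : FN (N * q) ≃ₐ[Kb] FN (N * q)) : FN (N * q) →ₐ[Kb] FN (N * q)).toRingHom.IsIntegral := by
    intro y
    refine ⟨Polynomial.X - Polynomial.C ((WF N q).symm y), Polynomial.monic_X_sub_C _, ?_⟩
    rw [Polynomial.eval₂_sub, Polynomial.eval₂_X, Polynomial.eval₂_C]
    show y - WF N q ((WF N q).symm y) = 0
    rw [AlgEquiv.apply_symm_apply, sub_self]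
  have h := Place.ord_restrictAlong ((WF N q : FN (N * q) ≃ₐ[Kb] FN (N * q)) :
    FN (N * q) →ₐ[Kb] FN (N * q)) hint v f
  have h' : v.ord (WF N q f) = _ := h
  rw [h']
  exact Dvd.dvd.mul_left (hdiv _) _

/-- the final algebra. -/
theorem goalB_alg {F : Type*} [Field F] (S W : F →+* F) (hSW : ∀ z, S (W z) = W (S z))
    (hWW : ∀ z, W (W z) = z) {m Q : ℕ} {f H w : F} (hf : f ≠ 0) (hH : H ≠ 0)
    (hw : w ^ m * (W f * S f * H ^ m) ^ Q = S (S (W f * S f * H ^ m))) :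
    ∃ w' : F, w' ^ m * (S (S f) / f) ^ Q = S (S (S (S f) / f)) := by
  have hSH : S (S H) ≠ 0 := (map_ne_zero S).2 ((map_ne_zero S).2 hH)
  have hWSf : W (S f) ≠ 0 := (map_ne_zero W).2 ((map_ne_zero S).2 hf)
  set g : F := W f * S f with hg
  set u : F := w * H ^ Q / S (S H) with hu
  have hZ : u ^ m * g ^ Q = S (S g) := by
    have h1 : S (S (g * H ^ m)) = S (S g) * S (S H) ^ m := by
      rw [map_mul, map_mul, map_pow, map_pow]
    rw [h1] at hw
    rw [hu, div_pow, div_mul_eq_mul_div, div_eq_iff (pow_ne_zero _ hSH), ← hw]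
    ring
  have hS := congrArg S hZ
  have hW := congrArg W hZ
  rw [map_mul, map_pow, map_pow] at hS hW
  rw [← hSW, ← hSW] at hW
  have e : S g / W g = S (S f) / f := by
    rw [hg, map_mul, map_mul, hWW, hSW]
    field_simp
  refine ⟨S u / W u, ?_⟩
  rw [← e, div_pow, div_pow, div_mul_div_comm, hS, hW, map_div₀, map_div₀]

theorem goalB (N q p r : ℕ) [NeZero N] [NeZero q] (hq : q.Prime) (hp : p.Prime) (hqp : q ≠ p)
    (hqN : ¬ q ∣ N) (hr : (q ≠ 3 ∧ r = 3) ∨ (q = 3 ∧ r = 2)) (hrN : r ∣ N) (n : ℕ)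
    (A : ValuationSubring Kb) (hA : A.LiesOverPrime q) (s : GQ) (hs : A.IsFrobeniusAt s q)
    (f : FN (N * q)) (hf : f ≠ 0)
    (hdiv : ∀ v : Place Kb (FN (N * q)), ((p ^ n : ℕ) : ℤ) ∣ v.ord f)
    (a b : FN N) (ha : a ^ (p ^ n) = GES.normA N q f) (hb : b ^ (p ^ n) = NEW.normB N q f) :
    ∃ w : FN (N * q), w ^ (p ^ n) * (galF (N * q) s (galF (N * q) s f) / f) ^ (q ^ 2) =
      galF (N * q) s (galF (N * q) s (galF (N * q) s (galF (N * q) s f) / f)) := by
  have hc : Nat.Coprime q N := (Nat.Prime.coprime_iff_not_dvd hq).2 hqN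
  have hm : p ^ n ≠ 0 := pow_ne_zero _ hp.ne_zero
  obtain ⟨H, hH, hi, h0⟩ := g1_conc N q r hq hqN hr hrN (p ^ n) hm A hA s hs f hf a b ha hb
  have hWf : WF N q f ≠ 0 := (map_ne_zero_iff _ (WF N q).injective).2 hf
  have hSf : galF (N * q) s f ≠ 0 := (map_ne_zero _).2 hf
  set y : FN (N * q) := WF N q f * galF (N * q) s f * H ^ (p ^ n) with hy
  have hy0 : y ≠ 0 := mul_ne_zero (mul_ne_zero hWf hSf) (pow_ne_zero _ hH)
  have hdivy : ∀ v : Place Kb (FN (N * q)), ((p ^ n : ℕ) : ℤ) ∣ v.ord y := by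
    intro v
    rw [hy, v.ord_mul (mul_ne_zero hWf hSf) (pow_ne_zero _ hH), v.ord_mul hWf hSf]
    refine dvd_add (dvd_add (WF_dvd_ord N q (p ^ n) f hdiv v) ?_) ?_
    · exact GES.galU_mem (N * q) (p ^ n) s (Units.mk0 f hf) (fun v => hdiv v) v
    · rw [S24.ord_pow]
      exact Dvd.intro _ rfl
  obtain ⟨w, hw⟩ := g2_conc N q p r hq hp hqp hqN hr hrN n A hA s hs y hy0 hdivy (by
    intro K _ _ _ ι _ E _ _ _ _ T hT y₀ hy₀
    have e : S18.toFN ι (N * q) (y₀ - 1) = y - 1 := by rw [map_sub, map_one, hy₀]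
    exact ⟨(mem_Vi_nonunits_iff ι A hT _).2 (by rw [e]; exact hi),
      (mem_V0_nonunits_iff ι A hT hc _).2 (by rw [e]; exact h0)⟩)
  exact goalB_alg (galF (N * q) s : FN (N * q) →+* FN (N * q))
    (WF N q : FN (N * q) →+* FN (N * q)) (fun z => (WF_galF N q hc s z).symm)
    (fun z => WF_WF N q hc z) hf hH hw

end Fermat.Agent.S35
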